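import Mathlib

/-! # GR / HeckeField / NormEmb : abstract field theory
* the norm is the product over any family of `[L:K]` distinct embeddings into a field;
* a tower law for `K(J) ⊆ F ⊆ F'`;
* products over the powers of a primitive root do not depend on the root. -/

set_option autoImplicit false

open IntermediateField

noncomputable section

namespace Fermat.Agent.GR.HeckeField

theorem norm_eq_prod_of_embeddings {K L E ι : Type*} [Field K] [Field L] [Field E] [Algebra K L]
    [Algebra K E] [FiniteDimensional K L] [Algebra.IsSeparable K L] [Fintype ι]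
    (σ : ι → L →ₐ[K] E) (hσ : Function.Injective σ)
    (hcard : Module.finrank K L ≤ Fintype.card ι) (x : L) :
    algebraMap K E (Algebra.norm K x) = ∏ i, σ i x := by
  classical
  let Ω := AlgebraicClosure E
  let τ : ι → L →ₐ[K] Ω := fun i => (IsScalarTower.toAlgHom K E Ω).comp (σ i)
  have hτ : Function.Injective τ := by
    intro i j hij
    apply hσ
    ext y
    have := DFunLike.congr_fun hij y
    exact (algebraMap E Ω).injective this
  have hc : Fintype.card (L →ₐ[K] Ω) = Module.finrank K L := AlgHom.card K L Ω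
  have hbij : Function.Bijective τ := by
    rw [Fintype.bijective_iff_injective_and_card]
    refine ⟨hτ, le_antisymm (Fintype.card_le_of_injective τ hτ) ?_⟩
    rw [hc]
    exact hcard
  have h1 := Algebra.norm_eq_prod_embeddings K Ω x
  rw [← (Equiv.ofBijective τ hbij).prod_comp] at h1
  apply (algebraMap E Ω).injective
  rw [← IsScalarTower.algebraMap_apply, h1, map_prod]
  rfl

/-- ring hom version: no algebra structure on the target is needed. -/
theorem norm_eq_prod_of_ringHoms {K L E ι : Type*} [Field K] [Field L] [Field E] [Algebra K L]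
    [FiniteDimensional K L] [Algebra.IsSeparable K L] [Fintype ι]
    (σ : ι → L →+* E) (hσ : Function.Injective σ)
    (hK : ∀ (i j : ι) (a : K), σ i (algebraMap K L a) = σ j (algebraMap K L a))
    (hcard : Module.finrank K L ≤ Fintype.card ι) (i₀ : ι) (x : L) :
    σ i₀ (algebraMap K L (Algebra.norm K x)) = ∏ i, σ i x := by
  let _ : Algebra K E := ((σ i₀).comp (algebraMap K L)).toAlgebra
  let τ : ι → L →ₐ[K] E := fun i => { σ i with commutes' := fun a => hK i i₀ a }
  have hτ : Function.Injective τ := by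
    intro i j hij
    apply hσ
    ext y
    exact DFunLike.congr_fun hij y
  exact norm_eq_prod_of_embeddings τ hτ hcard x

theorem finrank_tower_adjoin {K F F' : Type*} [Field K] [Field F] [Field F'] [Algebra K F]
    [Algebra K F'] [Algebra F F'] [IsScalarTower K F F'] (J : F) :
    Module.finrank K⟮J⟯ F * Module.finrank F F' = Module.finrank K⟮algebraMap F F' J⟯ F' := by
  rw [Module.finrank_mul_finrank K⟮J⟯ F F']
  let α : F →ₐ[K] F' := IsScalarTower.toAlgHom K F F'
  have hmap : (K⟮J⟯).map α = K⟮algebraMap F F' J⟯ := by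
    rw [IntermediateField.adjoin_map, Set.image_singleton]
    rfl
  let i : K⟮J⟯ ≃+* K⟮algebraMap F F' J⟯ :=
    ((K⟮J⟯).equivMap α).toRingEquiv.trans (IntermediateField.equivOfEq hmap).toRingEquiv
  refine Algebra.finrank_eq_of_equiv_equiv i (RingEquiv.refl F') ?_
  ext x
  rfl

theorem prod_pow_primitiveRoot {R A : Type*} [CommRing R] [IsDomain R] [CommMonoid A] {ℓ : ℕ} [NeZero ℓ]
    {ζ₁ ζ₂ : Rˣ} (h₁ : IsPrimitiveRoot ζ₁ ℓ) (h₂ : IsPrimitiveRoot ζ₂ ℓ)
    (F : Rˣ → A) : ∏ b ∈ Finset.range ℓ, F (ζ₁ ^ b) = ∏ b ∈ Finset.range ℓ, F (ζ₂ ^ b) := by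
  classical
  have key : ∀ {ζ ξ : Rˣ}, IsPrimitiveRoot ζ ℓ → IsPrimitiveRoot ξ ℓ →
      (Finset.range ℓ).image (fun b => ζ ^ b) ⊆ (Finset.range ℓ).image (fun b => ξ ^ b) := by
    intro ζ ξ hζ hξ x hx
    obtain ⟨b, -, rfl⟩ := Finset.mem_image.mp hx
    have h1 : ((ζ ^ b : Rˣ) : R) ^ ℓ = 1 := by
      rw [← Units.val_pow_eq_pow_val, ← pow_mul, mul_comm, pow_mul, hζ.pow_eq_one, one_pow,
        Units.val_one]
    obtain ⟨i, hi, hi'⟩ := (IsPrimitiveRoot.coe_units_iff.mpr hξ).eq_pow_of_pow_eq_one h1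
    exact Finset.mem_image.mpr ⟨i, Finset.mem_range.mpr hi, Units.ext (by simpa using hi')⟩
  have himg : ∀ {ζ : Rˣ}, IsPrimitiveRoot ζ ℓ →
      ∏ b ∈ Finset.range ℓ, F (ζ ^ b) = ∏ x ∈ (Finset.range ℓ).image (fun b => ζ ^ b), F x := by
    intro ζ hζ
    rw [Finset.prod_image]
    intro i hi j hj hij
    exact hζ.pow_inj (Finset.mem_range.mp hi) (Finset.mem_range.mp hj) hij
  rw [himg h₁, himg h₂, Finset.Subset.antisymm (key h₁ h₂) (key h₂ h₁)]

end Fermat.Agent.GR.HeckeField
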