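import Fermat.Agent.GR.HeckeField.Conj
import Fermat.Agent.GR.HeckeField.NormEmb
import Fermat.Agent.S24.Mod.Degree
import Fermat.Agent.Lib.Gamma0Cosets.Index
import Fermat.Prelude.Def_ModularCurve_HeckeOperator

/-! # GR / HeckeField / Main : `N_{F_{Mℓ}/F_M}(f(q^ℓ)) = f(q^ℓ) ∏_b f(ζ^b q^{1/ℓ})`. -/

set_option autoImplicit false

open UpperHalfPlane ModularForm Function ModularCurve IntermediateField
open scoped Manifold MatrixGroups

noncomputable section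

namespace Fermat.Agent.GR.HeckeField

open Fermat.Agent.S24 Fermat.Agent.S28

variable (M ℓ : ℕ) [NeZero M] [NeZero ℓ]

/-- the inclusion `F_M ⊆ F_{Mℓ}`. -/
abbrev alp : FN M →ₐ[Kb] FN (M * ℓ) := heckeAlphaBar Kb M ℓ

/-- `f(q) ↦ f(q^ℓ)`, `F_M → F_{Mℓ}`. -/
abbrev bet : FN M →ₐ[Kb] FN (M * ℓ) := heckeBetaBar Kb M ℓ

theorem alp_Jd (d : ℕ) [NeZero d] (hd : d ∣ M) :
    alp M ℓ (Jd M d hd) = Jd (M * ℓ) d (hd.mul_right ℓ) := Subtype.ext rfl

theorem bet_Jd (d : ℕ) [NeZero d] (hd : d ∣ M) :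
    bet M ℓ (Jd M d hd) = Jd (M * ℓ) (ℓ * d) (by rw [mul_comm M ℓ]; exact mul_dvd_mul_left ℓ hd) := by
  apply Subtype.ext
  change qExpand Kb ℓ (coeffMap (algebraMap ℚ Kb) (qExpand ℚ d jq)) =
    coeffMap (algebraMap ℚ Kb) (qExpand ℚ (ℓ * d) jq)
  rw [← coeffMap_qExpand, qExpand_qExpand]

/-- `F_{Mℓ}` as an algebra over `F_M` (inclusion). -/
@[reducible] def algFN : Algebra (FN M) (FN (M * ℓ)) := (alp M ℓ).toRingHom.toAlgebra

attribute [local instance] algFN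

instance instIsScalarTowerFN : IsScalarTower Kb (FN M) (FN (M * ℓ)) :=
  IsScalarTower.of_algebraMap_eq' (alp M ℓ).comp_algebraMap.symm

theorem algebraMap_FN_apply (x : FN M) : algebraMap (FN M) (FN (M * ℓ)) x = alp M ℓ x := rfl

theorem finrank_FN_mul (hℓ : ℓ.Prime) (hM : ¬ ℓ ∣ M) :
    Module.finrank (FN M) (FN (M * ℓ)) = ℓ + 1 := by
  have h1 := finrank_tower_adjoin (K := Kb) (F := FN M) (F' := FN (M * ℓ)) (JJ M)
  have h2 : algebraMap (FN M) (FN (M * ℓ)) (JJ M) = JJ (M * ℓ) := alp_Jd M ℓ 1 (one_dvd M)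
  have hcop : Nat.Coprime M ℓ := ((Nat.Prime.coprime_iff_not_dvd hℓ).mpr hM).symm
  have h3 : dedekindPsi ℓ = ℓ + 1 := by
    have := Fermat.Agent.Lib.Gamma0Cosets.dedekindPsi_prime_pow hℓ 0
    simpa using this
  rw [h2, finrank_FN, finrank_FN, Fermat.Agent.Lib.Gamma0Cosets.card_quotient,
    Fermat.Agent.Lib.Gamma0Cosets.card_quotient,
    Fermat.Agent.Lib.Gamma0Cosets.dedekindPsi_mul hcop, h3] at h1
  have h4 : 0 < dedekindPsi M := by
    rw [← Fermat.Agent.Lib.Gamma0Cosets.card_quotient M]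
    exact Nat.card_pos
  exact Nat.eq_of_mul_eq_mul_left h4 h1

theorem finiteDimensional_FN_mul (hℓ : ℓ.Prime) (hM : ¬ ℓ ∣ M) :
    FiniteDimensional (FN M) (FN (M * ℓ)) :=
  Module.finite_of_finrank_pos (by rw [finrank_FN_mul M ℓ hℓ hM]; omega)

/-- two ring homs out of `FN N` agreeing on constants and on all `Jd` agree. -/
theorem ringHom_ext_FN {N : ℕ} {E : Type*} [Field E] {f g : FN N →+* E}
    (hc : ∀ a : Kb, f (algebraMap Kb (FN N) a) = g (algebraMap Kb (FN N) a))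
    (h : ∀ (d : ℕ) [NeZero d] (hd : d ∣ N), f (Jd N d hd) = g (Jd N d hd)) : f = g := by
  let _ : Algebra Kb E := (f.comp (algebraMap Kb (FN N))).toAlgebra
  let f' : FN N →ₐ[Kb] E := { f with commutes' := fun a => rfl }
  let g' : FN N →ₐ[Kb] E := { g with commutes' := fun a => (hc a).symm }
  have : f' = g' := algHom_ext_FN (fun d _ hd => h d hd)
  ext x
  exact DFunLike.congr_fun this x

theorem smul_Psi_alp {γ : SL(2, ℤ)} (hγ : γ ∈ CongruenceSubgroup.Gamma0 M) (x : FN M) :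
    γ • Psi (M * ℓ) (alp M ℓ x) = Psi (M * ℓ) (alp M ℓ x) := by
  have key : (sig (M * ℓ) γ).comp ((Psi (M * ℓ)).comp (alp M ℓ)) = (Psi (M * ℓ)).comp (alp M ℓ) := by
    apply algHom_ext_FN
    intro d _ hd
    rw [AlgHom.comp_apply, AlgHom.comp_apply, sig_apply, alp_Jd, Psi_Jd, smul_algebraMap_LL]
    refine congrArg _ (Subtype.ext (funext fun τ => ?_))
    exact jD_smul_of_mem_Gamma0 hd (inv_mem hγ) τ
  exact DFunLike.congr_fun key x

/-- the embedding `y ↦ Q-expansion of (γ • y)` of `F_{Mℓ}` into `ℂ((Q))`, `Q = q^(1/(Mℓ))`. -/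
def emb (γ : SL(2, ℤ)) : FN (M * ℓ) →+* LaurentSeries ℂ :=
  (LamL (M * ℓ)).comp ((sig (M * ℓ) γ).comp (Psi (M * ℓ))).toRingHom

theorem emb_apply (γ : SL(2, ℤ)) (y : FN (M * ℓ)) :
    emb M ℓ γ y = LamL (M * ℓ) (γ • Psi (M * ℓ) y) := rfl

theorem emb_alp {γ : SL(2, ℤ)} (hγ : γ ∈ CongruenceSubgroup.Gamma0 M) (x : FN M) :
    emb M ℓ γ (alp M ℓ x) = kap (M * ℓ) (alp M ℓ x) := by
  rw [emb_apply, smul_Psi_alp M ℓ hγ, LamL_Psi]

theorem emb_one (y : FN (M * ℓ)) : emb M ℓ 1 y = kap (M * ℓ) y := by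
  rw [emb_apply, one_smul, LamL_Psi]

theorem coeffMap_iota_JdL (d : ℕ) [NeZero d] : coeffMap iota (JdL d) = qExpand ℂ d (jqModC ℂ) := by
  change coeffMap iota (coeffMap (algebraMap ℚ Kb) (qExpand ℚ d jq)) = _
  rw [coeffMap_coeffMap, coeffMap_qExpand]
  congr 1
  exact map_jqModC (K := ℚ) (iota.comp (algebraMap ℚ Kb))

/-- the conjugating element `(γ₀ T^b)⁻¹`. -/
def gamB (u v : ℤ) (h : u * ℓ - v * M = 1) (b : ℤ) : SL(2, ℤ) :=
  (gam0 M ℓ u v h * ModularGroup.T ^ b)⁻¹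

theorem gamB_mem (u v : ℤ) (h : u * ℓ - v * M = 1) (b : ℤ) :
    gamB M ℓ u v h b ∈ CongruenceSubgroup.Gamma0 M :=
  inv_mem (mul_mem (gam0_mem M ℓ u v h) (T_zpow_mem M b))

theorem emb_gamB_bet (u v : ℤ) (h : u * ℓ - v * M = 1) (b : ℤ) (x : FN M) :
    emb M ℓ (gamB M ℓ u v h b) (bet M ℓ x) =
      qExpand ℂ M (twist (rootU ℓ b) (coeffMap iota (x : LaurentSeries Kb))) := by
  let f : FN M →+* LaurentSeries ℂ :=
    (emb M ℓ (gamB M ℓ u v h b)).comp (bet M ℓ).toRingHom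
  let g : FN M →+* LaurentSeries ℂ :=
    (qExpand ℂ M).comp ((twist (rootU ℓ b)).comp ((coeffMap iota).comp
      (algebraMap (FN M) (LaurentSeries Kb))))
  have key : f = g := by
    apply ringHom_ext_FN
    · intro a
      show emb M ℓ _ (bet M ℓ (algebraMap Kb (FN M) a)) =
        qExpand ℂ M (twist (rootU ℓ b) (coeffMap iota (algebraMap Kb (LaurentSeries Kb) a)))
      rw [AlgHom.commutes, emb_apply, AlgHom.commutes, ← sig_apply, AlgHom.commutes,
        ← kap_algebraMap, kap_apply]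
      have h1 : ((algebraMap Kb (FN (M * ℓ)) a : FN (M * ℓ)) : LaurentSeries Kb) =
          HahnSeries.single 0 a := algebraMap_laurentSeries_eq_single Kb a
      rw [h1, algebraMap_laurentSeries_eq_single, coeffMap_single, twist_single_zero,
        qExpand_single, qExpand_single, mul_zero, mul_zero]
    · intro d _ hd
      show emb M ℓ _ (bet M ℓ (Jd M d hd)) =
        qExpand ℂ M (twist (rootU ℓ b) (coeffMap iota (JdL d)))
      rw [bet_Jd, emb_apply, Psi_Jd, smul_algebraMap_LL, LamL_algebraMap, coeffMap_iota_JdL,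
        twist_qExpand, qExpand_qExpand, rootU_pow]
      have hmem : (fun τ => jFun (affH d ℓ (d * b) (Nat.pos_of_ne_zero (NeZero.ne d))
          (Nat.pos_of_ne_zero (NeZero.ne ℓ)) τ)) ∈ MerInf (M * ℓ) :=
        ⟨d, isNice_discriminant_pow_mul_jFun_affH (M * ℓ) d ℓ (d * b) _ _ (Dvd.intro_left M rfl)⟩
      rw [← Lam_jFun_affH d ℓ (d * b) _ _ (N := M * ℓ) (k := M * d) (by ring) hmem]
      show Lam (M * ℓ) _ = _
      refine congrArg _ (Subtype.ext (funext fun τ => ?_))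
      show jD (ℓ * d) ((gamB M ℓ u v h b)⁻¹ • τ) = _
      rw [gamB, inv_inv, jD_gam0_T_smul d M ℓ hd]
  exact DFunLike.congr_fun key x

/-- the `ℓ+1` conjugating elements. -/
def gamI (u v : ℤ) (h : u * ℓ - v * M = 1) : Option (Fin ℓ) → SL(2, ℤ)
  | none => 1
  | some b => gamB M ℓ u v h ((b : ℕ) : ℤ)

theorem gamI_mem (u v : ℤ) (h : u * ℓ - v * M = 1) (i : Option (Fin ℓ)) :
    gamI M ℓ u v h i ∈ CongruenceSubgroup.Gamma0 M := by
  cases i with
  | none => exact one_mem _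
  | some b => exact gamB_mem M ℓ u v h _

theorem coeff_emb_none (hℓ : 2 ≤ ℓ) :
    (emb M ℓ 1 (bet M ℓ (JJ M))).coeff (-(M : ℤ)) = 0 := by
  rw [emb_one, kap_apply]
  apply qExpand_coeff_of_not_dvd
  intro hdvd
  rw [dvd_neg] at hdvd
  have h1 : M * ℓ ∣ M * 1 := by
    rw [mul_one]
    exact_mod_cast hdvd
  have h2 := Nat.dvd_of_mul_dvd_mul_left (Nat.pos_of_ne_zero (NeZero.ne M)) h1
  have := Nat.le_of_dvd one_pos h2
  omega

theorem coeff_emb_some (u v : ℤ) (h : u * ℓ - v * M = 1) (b : ℤ) :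
    (emb M ℓ (gamB M ℓ u v h b) (bet M ℓ (JJ M))).coeff (-(M : ℤ)) =
      (((rootU ℓ b)⁻¹ : ℂˣ) : ℂ) := by
  rw [emb_gamB_bet]
  have : (-(M : ℤ)) = (M : ℤ) * (-1) := by ring
  rw [this, qExpand_coeff_mul, twist_coeff, coeffMap_coeff, coeff_JJ_neg_one, map_one, mul_one,
    zpow_neg_one]

theorem emb_gamI_injective (hℓ : 2 ≤ ℓ) (u v : ℤ) (h : u * ℓ - v * M = 1) :
    Function.Injective (fun i => emb M ℓ (gamI M ℓ u v h i)) := by
  intro i j hij
  have hc := congrArg (fun φ : FN (M * ℓ) →+* LaurentSeries ℂ =>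
    (φ (bet M ℓ (JJ M))).coeff (-(M : ℤ))) hij
  simp only at hc
  cases i with
  | none =>
    cases j with
    | none => rfl
    | some b =>
      exfalso
      simp only [gamI] at hc
      rw [coeff_emb_none M ℓ hℓ, coeff_emb_some] at hc
      exact Units.ne_zero _ hc.symm
  | some a =>
    cases j with
    | none =>
      exfalso
      simp only [gamI] at hc
      rw [coeff_emb_none M ℓ hℓ, coeff_emb_some] at hc
      exact Units.ne_zero _ hc
    | some b =>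
      simp only [gamI] at hc
      rw [coeff_emb_some, coeff_emb_some] at hc
      have h1 : rootU ℓ ((a : ℕ) : ℤ) = rootU ℓ ((b : ℕ) : ℤ) := inv_injective (Units.ext hc)
      rw [rootU_natCast, rootU_natCast] at h1
      have := (isPrimitiveRoot_rootU ℓ).pow_inj a.2 b.2 h1
      exact congrArg some (Fin.ext this)

/-- the norm `N_{F_{Mℓ}/F_M}(f(q^ℓ))`. -/
def heckeNorm (f : FN M) : FN M := Algebra.norm (FN M) (bet M ℓ f)

theorem kap_heckeNorm (hℓ : ℓ.Prime) (hM : ¬ ℓ ∣ M) (f : FN M) :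
    kap (M * ℓ) (alp M ℓ (heckeNorm M ℓ f)) = kap (M * ℓ) (bet M ℓ f) *
      ∏ b : Fin ℓ, qExpand ℂ M (twist (rootU ℓ ((b : ℕ) : ℤ))
        (coeffMap iota (f : LaurentSeries Kb))) := by
  have hcop : IsCoprime (ℓ : ℤ) (M : ℤ) :=
    Nat.isCoprime_iff_coprime.mpr ((Nat.Prime.coprime_iff_not_dvd hℓ).mpr hM)
  obtain ⟨a, b, hab⟩ := hcop
  have h : a * ℓ - (-b) * M = 1 := by linarith
  have := finiteDimensional_FN_mul M ℓ hℓ hM
  have key := norm_eq_prod_of_ringHoms (K := FN M) (L := FN (M * ℓ))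
    (fun i => emb M ℓ (gamI M ℓ a (-b) h i)) (emb_gamI_injective M ℓ hℓ.two_le a (-b) h)
    (fun i j x => by
      show emb M ℓ _ (alp M ℓ x) = emb M ℓ _ (alp M ℓ x)
      rw [emb_alp M ℓ (gamI_mem M ℓ a (-b) h i), emb_alp M ℓ (gamI_mem M ℓ a (-b) h j)])
    (by rw [finrank_FN_mul M ℓ hℓ hM, Fintype.card_option, Fintype.card_fin]) none (bet M ℓ f)
  rw [Fintype.prod_option] at key
  simp only [gamI] at key
  rw [emb_one, emb_one] at key
  rw [heckeNorm]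
  refine key.trans ?_
  congr 1
  exact Finset.prod_congr rfl fun b _ => emb_gamB_bet M ℓ _ _ _ _ f

theorem coeffMap_iota_injective : Function.Injective (coeffMap iota) := by
  intro x y hxy
  ext n
  have := congrArg (fun z : LaurentSeries ℂ => z.coeff n) hxy
  simp only [coeffMap_coeff] at this
  exact iota.injective this

/-- **(B-nf-1)** the `q`-expansion of the norm: `g(q^ℓ) = f(q^{ℓ²}) ∏_b f(ζ^b q)`. -/
theorem qExpand_heckeNorm (hℓ : ℓ.Prime) (hM : ¬ ℓ ∣ M) (ζ : Kbˣ) (hζ : IsPrimitiveRoot ζ ℓ)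
    (f : FN M) :
    qExpand Kb ℓ ((heckeNorm M ℓ f : FN M) : LaurentSeries Kb) =
      qExpand Kb ℓ (qExpand Kb ℓ (f : LaurentSeries Kb)) *
        ∏ b ∈ Finset.range ℓ, twist (ζ ^ b) (f : LaurentSeries Kb) := by
  apply coeffMap_iota_injective
  apply qExpand_injective (R := ℂ) M
  have h1 := kap_heckeNorm M ℓ hℓ hM f
  rw [kap_apply, kap_apply] at h1
  have e1 : ((alp M ℓ (heckeNorm M ℓ f) : FN (M * ℓ)) : LaurentSeries Kb) =
      ((heckeNorm M ℓ f : FN M) : LaurentSeries Kb) := coe_heckeAlphaBar M ℓ _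
  have e2 : ((bet M ℓ f : FN (M * ℓ)) : LaurentSeries Kb) = qExpand Kb ℓ (f : LaurentSeries Kb) :=
    coe_heckeBetaBar M ℓ _
  rw [e1, e2] at h1
  rw [coeffMap_qExpand, qExpand_qExpand, h1, map_mul, map_mul, map_prod, map_prod]
  have hζ' : IsPrimitiveRoot (Units.map (iota : Kb →* ℂ) ζ) ℓ :=
    hζ.map_of_injective (Units.map_injective iota.injective)
  have h2 := prod_pow_primitiveRoot hζ' (isPrimitiveRoot_rootU ℓ)
    (fun ξ => qExpand ℂ M (twist ξ (coeffMap iota (f : LaurentSeries Kb))))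
  congr 1
  · rw [coeffMap_qExpand iota ℓ (qExpand Kb ℓ (f : LaurentSeries Kb)), qExpand_qExpand]
  · simp only [coeffMap_twist, map_pow]
    rw [h2, Finset.prod_range]
    exact Finset.prod_congr rfl fun b _ => by rw [rootU_natCast]

/-- **(B-nf-1)**, existential form. -/
theorem exists_heckeNorm (hℓ : ℓ.Prime) (hM : ¬ ℓ ∣ M) (ζ : Kbˣ) (hζ : IsPrimitiveRoot ζ ℓ)
    (f : LaurentSeries Kb) (hf : f ∈ modularFunctionFieldBar M) :
    ∃ g ∈ modularFunctionFieldBar M, qExpand Kb ℓ g =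
      qExpand Kb ℓ (qExpand Kb ℓ f) * ∏ b ∈ Finset.range ℓ, twist (ζ ^ b) f :=
  ⟨_, (heckeNorm M ℓ ⟨f, hf⟩).2, qExpand_heckeNorm M ℓ hℓ hM ζ hζ ⟨f, hf⟩⟩

end Fermat.Agent.GR.HeckeField
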