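import Fermat.Agent.S24.Mod.Scale
import Fermat.Agent.S28.Defs

/-! # GR / HeckeField / AffExp : the `Q`-expansion of `τ ↦ f((aτ+b)/e)`, and
`Lam N (j((a·+b)/e)) = j(ξ Q^k)` with `ξ = exp(2πi b/e)`, `k e = N a`.
(generalises `S24/Mod/Scale.lean`). -/

set_option autoImplicit false

open UpperHalfPlane ModularForm Function ModularCurve
open scoped Manifold MatrixGroups

noncomputable section

namespace Fermat.Agent.GR.HeckeField

open Fermat.Agent.S24 Fermat.Agent.S28

local notation "Δ" => ModularForm.discriminant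
local notation "𝕢" => Periodic.qParam

/-- `exp(2πi b/e)` as a unit of `ℂ`. -/
def rootU (e : ℕ) (b : ℤ) : ℂˣ :=
  Units.mk0 (Complex.exp (2 * Real.pi * Complex.I * b / e)) (Complex.exp_ne_zero _)

@[simp] theorem coe_rootU (e : ℕ) (b : ℤ) :
    (rootU e b : ℂ) = Complex.exp (2 * Real.pi * Complex.I * b / e) := rfl

variable (a e : ℕ) (b : ℤ) (ha : 0 < a) (he : 0 < e)

theorem affH_ofComplex {w : ℂ} (hw : 0 < w.im) :
    affH a e b ha he (ofComplex w) = ofComplex (((a : ℂ) * w + b) / e) := by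
  have hw' : 0 < (((a : ℂ) * w + b) / e).im := (affH a e b ha he ⟨w, hw⟩).2
  rw [ofComplex_apply_of_im_pos hw, ofComplex_apply_of_im_pos hw']
  rfl

/-- `f((a·+b)/e)` is nice of period `e/a`. -/
theorem isNice_comp_affH_aux {f : ℍ → ℂ} (hf : IsNice 1 f) :
    IsNice ((e : ℝ) / a) (fun τ => f (affH a e b ha he τ)) where
  per := by
    apply Her.periodic_of_vadd
    intro τ
    have ha' : (a : ℂ) ≠ 0 := by exact_mod_cast ha.ne'
    have he' : (e : ℂ) ≠ 0 := by exact_mod_cast he.ne'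
    have : affH a e b ha he (((e : ℝ) / a) +ᵥ τ) = (1 : ℝ) +ᵥ affH a e b ha he τ := by
      apply UpperHalfPlane.ext
      simp only [coe_affH, UpperHalfPlane.coe_vadd]
      push_cast
      field_simp
      ring
    rw [this]
    exact Her.vadd_of_periodic hf.per _
  holo := by
    rw [UpperHalfPlane.mdifferentiable_iff]
    have h1 := UpperHalfPlane.mdifferentiable_iff.mp hf.holo
    have h2 : DifferentiableOn ℂ ((f ∘ ofComplex) ∘ fun w : ℂ => ((a : ℂ) * w + b) / e)
        {z | 0 < z.im} := by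
      refine h1.comp (by fun_prop) ?_
      intro z hz
      exact (affH a e b ha he ⟨z, hz⟩).2
    refine h2.congr ?_
    intro z hz
    simp only [comp_apply]
    rw [affH_ofComplex a e b ha he hz]
  bdd := hf.bdd.comp_tendsto (Her.tendsto_affH a e b ha he)

theorem qParam_affH (τ : ℍ) :
    𝕢 1 (affH a e b ha he τ : ℂ) = (rootU e b : ℂ) * 𝕢 ((e : ℝ) / a) (τ : ℂ) := by
  have ha' : (a : ℂ) ≠ 0 := by exact_mod_cast ha.ne'
  have he' : (e : ℂ) ≠ 0 := by exact_mod_cast he.ne'
  simp only [Periodic.qParam, coe_affH, coe_rootU]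
  rw [← Complex.exp_add]
  congr 1
  push_cast
  field_simp
  ring

theorem qExpansion_comp_affH_aux {f : ℍ → ℂ} (hf : IsNice 1 f) (m : ℕ) :
    (qExpansion ((e : ℝ) / a) (fun τ => f (affH a e b ha he τ))).coeff m =
      (rootU e b : ℂ) ^ m * (qExpansion 1 f).coeff m := by
  have hd : (0 : ℝ) < (e : ℝ) / a := by
    have h1 : (0 : ℝ) < a := by exact_mod_cast ha
    have h2 : (0 : ℝ) < e := by exact_mod_cast he
    positivity
  have hg := isNice_comp_affH_aux a e b ha he hf
  have han : AnalyticAt ℂ (cuspFunction ((e : ℝ) / a) (fun τ => f (affH a e b ha he τ))) 0 :=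
    analyticAt_cuspFunction_zero hd hg.per hg.holo hg.bdd
  have hsum : ∀ τ : ℍ, HasSum (fun m ↦ ((rootU e b : ℂ) ^ m * (qExpansion 1 f).coeff m) •
      𝕢 ((e : ℝ) / a) (τ : ℂ) ^ m) (f (affH a e b ha he τ)) := by
    intro τ
    have := hasSum_qExpansion one_pos hf.per hf.holo hf.bdd (affH a e b ha he τ)
    rw [qParam_affH] at this
    convert this using 2 with m
    simp only [smul_eq_mul, mul_pow]
    ring
  exact (UpperHalfPlane.qExpansion_coeff_unique (F := ScaleFnLike)
    (show ScaleFnLike from fun τ => f (affH a e b ha he τ)) hd han hsum m).symm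

include ha in
theorem cast_mul_div {N k : ℕ} (hk : k * e = N * a) : (k : ℝ) * ((e : ℝ) / a) = (N : ℝ) := by
  have h1 : (a : ℝ) ≠ 0 := by exact_mod_cast ha.ne'
  have h2 : (k : ℝ) * e = N * a := by exact_mod_cast hk
  field_simp
  linarith

theorem isNice_comp_affH {N k : ℕ} (hk : k * e = N * a) {f : ℍ → ℂ} (hf : IsNice 1 f) :
    IsNice N (fun τ => f (affH a e b ha he τ)) := by
  have := (isNice_comp_affH_aux a e b ha he hf).of_nat_mul k
  rwa [cast_mul_div a e ha hk] at this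

theorem qExpansion_comp_affH {N k : ℕ} [NeZero k] (hk : k * e = N * a) {f : ℍ → ℂ}
    (hf : IsNice 1 f) (n : ℕ) : (qExpansion N (fun τ => f (affH a e b ha he τ))).coeff n =
      if k ∣ n then (rootU e b : ℂ) ^ (n / k) * (qExpansion 1 f).coeff (n / k) else 0 := by
  have hd : (0 : ℝ) < (e : ℝ) / a := by
    have h1 : (0 : ℝ) < a := by exact_mod_cast ha
    have h2 : (0 : ℝ) < e := by exact_mod_cast he
    positivity
  have hg := isNice_comp_affH_aux a e b ha he hf
  have hM : 0 < k := Nat.pos_of_ne_zero (NeZero.ne k)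
  have := UpperHalfPlane.qExpansion_coeff_nat_mul hd hg.per hg.holo hg.bdd hM n
  rw [cast_mul_div a e ha hk] at this
  rw [this]
  simp only [qExpansion_comp_affH_aux a e b ha he hf]

theorem ofPowerSeries_qExpansion_comp_affH {N k : ℕ} [NeZero k] (hk : k * e = N * a) {f : ℍ → ℂ}
    (hf : IsNice 1 f) :
    HahnSeries.ofPowerSeries ℤ ℂ (qExpansion N (fun τ => f (affH a e b ha he τ)))
      = qExpand ℂ k (twist (rootU e b) (HahnSeries.ofPowerSeries ℤ ℂ (qExpansion 1 f))) := by
  have hM : 0 < k := Nat.pos_of_ne_zero (NeZero.ne k)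
  ext j
  by_cases hdvd : (k : ℤ) ∣ j
  · obtain ⟨m, rfl⟩ := hdvd
    rw [qExpand_coeff_mul, twist_coeff]
    rcases le_or_gt 0 m with hm | hm
    · lift m to ℕ using hm
      rw [HahnSeries.ofPowerSeries_apply_coeff]
      have : (k : ℤ) * (m : ℤ) = ((k * m : ℕ) : ℤ) := by push_cast; ring
      rw [this, HahnSeries.ofPowerSeries_apply_coeff, qExpansion_comp_affH a e b ha he hk hf,
        if_pos (Dvd.intro _ rfl), Nat.mul_div_cancel_left _ hM]
      simp
    · rw [ofPowerSeries_coeff_of_neg _ hm, ofPowerSeries_coeff_of_neg, mul_zero]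
      exact mul_neg_of_pos_of_neg (by exact_mod_cast hM) hm
  · rw [qExpand_coeff_of_not_dvd _ _ hdvd]
    rcases le_or_gt 0 j with hj | hj
    · lift j to ℕ using hj
      rw [HahnSeries.ofPowerSeries_apply_coeff, qExpansion_comp_affH a e b ha he hk hf, if_neg]
      intro h
      exact hdvd (by exact_mod_cast h)
    · exact ofPowerSeries_coeff_of_neg _ hj

/-- The `Q`-expansion of `τ ↦ j((aτ+b)/e)`. -/
theorem Lam_jFun_affH {N k : ℕ} [NeZero N] [NeZero k] (hk : k * e = N * a)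
    (h : (fun τ => jFun (affH a e b ha he τ)) ∈ MerInf N) :
    Lam N ⟨fun τ => jFun (affH a e b ha he τ), h⟩ = qExpand ℂ k (twist (rootU e b) (jqModC ℂ)) := by
  have hΔ : IsNice N (fun τ => Δ (affH a e b ha he τ)) :=
    isNice_comp_affH a e b ha he hk isNice_discriminant_one
  have hE1 : IsNice 1 (fun τ : ℍ => (E₄ τ) ^ 3) := isNice_E4.pow 3
  have hE : IsNice N (fun τ => (E₄ (affH a e b ha he τ)) ^ 3) :=
    isNice_comp_affH a e b ha he hk hE1
  obtain ⟨A, hA⟩ : ∃ A : MerInf N, A.1 = fun τ => Δ (affH a e b ha he τ) :=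
    ⟨⟨_, hΔ.mem_MerInf⟩, rfl⟩
  obtain ⟨B, hB⟩ : ∃ B : MerInf N, B.1 = fun τ => (E₄ (affH a e b ha he τ)) ^ 3 :=
    ⟨⟨_, hE.mem_MerInf⟩, rfl⟩
  obtain ⟨J, hJ⟩ : ∃ J : MerInf N, J = ⟨fun τ => jFun (affH a e b ha he τ), h⟩ := ⟨_, rfl⟩
  have hJ1 : J.1 = fun τ => jFun (affH a e b ha he τ) := by rw [hJ]
  rw [← hJ]
  have hmul : A * J = B := by
    apply Subtype.ext
    funext τ
    have : (A * J).1 τ = A.1 τ * J.1 τ := rfl
    rw [this, hA, hB, hJ1]
    exact discriminant_mul_jFun (affH a e b ha he τ)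
  have hLA : Lam N A = qExpand ℂ k (twist (rootU e b)
      (HahnSeries.ofPowerSeries ℤ ℂ (qExpansion 1 Δ))) := by
    rw [Lam_of_isNice N A (by rw [hA]; exact hΔ), hA]
    exact ofPowerSeries_qExpansion_comp_affH a e b ha he hk (f := Δ) isNice_discriminant_one
  have hLB : Lam N B = qExpand ℂ k (twist (rootU e b)
      (HahnSeries.ofPowerSeries ℤ ℂ (qExpansion 1 Δ))) *
      qExpand ℂ k (twist (rootU e b) (jqModC ℂ)) := by
    rw [Lam_of_isNice N B (by rw [hB]; exact hE), hB,
      ← map_mul (qExpand ℂ k), ← map_mul (twist (rootU e b)), ← ofPowerSeries_qExpansion_E4_cube]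
    exact ofPowerSeries_qExpansion_comp_affH a e b ha he hk (f := fun τ : ℍ => (E₄ τ) ^ 3) hE1
  have hA0 : Lam N A ≠ 0 := by
    intro h0
    have hA00 : A = 0 := Lam_injective N (by rw [h0, map_zero])
    have h1 : A.1 UpperHalfPlane.I = 0 := by rw [hA00]; rfl
    rw [hA] at h1
    exact discriminant_ne_zero _ h1
  have h3 : Lam N A * Lam N J = Lam N A * qExpand ℂ k (twist (rootU e b) (jqModC ℂ)) := by
    rw [← map_mul (Lam N), hmul, hLB, ← hLA]
  exact mul_left_cancel₀ hA0 h3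

end Fermat.Agent.GR.HeckeField
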