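import Fermat.Agent.GR.HeckeField.AffExp
import Fermat.Agent.S24.Mod.Psi

/-! # GR / HeckeField / Conj : the conjugates of `j(dℓτ)` over level `M`:
`j(dℓ γ₀ T^b τ) = j(d(τ+b)/ℓ)` for `γ₀ = [[u,v],[M,ℓ]] ∈ Γ₀(M)`; formal lemmas on `twist`. -/

set_option autoImplicit false

open UpperHalfPlane ModularForm Function ModularCurve
open scoped Manifold MatrixGroups

noncomputable section

namespace Fermat.Agent.GR.HeckeField

open Fermat.Agent.S24 Fermat.Agent.S28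

/-- `γ₀ = [[u,v],[M,ℓ]]`. -/
def gam0 (M ℓ : ℕ) (u v : ℤ) (h : u * ℓ - v * M = 1) : SL(2, ℤ) :=
  ⟨!![u, v; (M : ℤ), (ℓ : ℤ)], by rw [Matrix.det_fin_two_of]; exact h⟩

theorem gam0_mem (M ℓ : ℕ) (u v : ℤ) (h : u * ℓ - v * M = 1) :
    gam0 M ℓ u v h ∈ CongruenceSubgroup.Gamma0 M := by
  rw [CongruenceSubgroup.Gamma0_mem]
  simp [gam0]

theorem T_zpow_mem (M : ℕ) (b : ℤ) : ModularGroup.T ^ b ∈ CongruenceSubgroup.Gamma0 M := by
  rw [CongruenceSubgroup.Gamma0_mem, ModularGroup.coe_T_zpow]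
  simp

/-- a general `SL(2,ℤ)` matrix from its entries. -/
def mkSL (p q r s : ℤ) (h : p * s - q * r = 1) : SL(2, ℤ) :=
  ⟨!![p, q; r, s], by rw [Matrix.det_fin_two_of]; exact h⟩

theorem coe_mkSL_smul (p q r s : ℤ) (h : p * s - q * r = 1) (τ : ℍ) :
    ((mkSL p q r s h • τ : ℍ) : ℂ) = ((p : ℂ) * τ + q) / ((r : ℂ) * τ + s) := by
  rw [coe_specialLinearGroup_apply]
  simp [mkSL]

theorem scaleH_gam0_smul (d M' ℓ : ℕ) [NeZero d] [NeZero ℓ] (u v : ℤ)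
    (h : u * ℓ - v * ((d * M' : ℕ) : ℤ) = 1) (τ : ℍ) :
    ∃ δ : SL(2, ℤ), scaleH (ℓ * d) (gam0 (d * M') ℓ u v h • τ) =
      δ • affH d ℓ 0 (Nat.pos_of_ne_zero (NeZero.ne d)) (Nat.pos_of_ne_zero (NeZero.ne ℓ)) τ := by
  refine ⟨mkSL ((ℓ : ℤ) * u) ((d : ℤ) * v) (M' : ℤ) 1 ?_, ?_⟩
  · push_cast at h
    linarith
  · apply UpperHalfPlane.ext
    have hg : gam0 (d * M') ℓ u v h = mkSL u v ((d * M' : ℕ) : ℤ) ℓ h := rfl
    rw [coe_scaleH, hg, coe_mkSL_smul, coe_mkSL_smul, coe_affH]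
    have hℓ : (ℓ : ℂ) ≠ 0 := by exact_mod_cast NeZero.ne ℓ
    have h1 : ((d : ℂ) * M') * τ + ℓ ≠ 0 := by
      have := UpperHalfPlane.linear_ne_zero (cd := ![((d * M' : ℕ) : ℝ), (ℓ : ℝ)]) τ (by
        intro h0
        have := congrFun h0 1
        simp at this
        exact NeZero.ne ℓ this)
      simpa using this
    have h2 : (M' : ℂ) * (((d : ℂ) * τ + 0) / ℓ) + 1 ≠ 0 := by
      have : (M' : ℂ) * (((d : ℂ) * τ + 0) / ℓ) + 1 = (((d : ℂ) * M') * τ + ℓ) / ℓ := by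
        field_simp
        ring
      rw [this]
      exact div_ne_zero h1 hℓ
    push_cast
    field_simp
    ring

theorem jD_gam0_smul (d M' ℓ : ℕ) [NeZero d] [NeZero ℓ] (u v : ℤ)
    (h : u * ℓ - v * ((d * M' : ℕ) : ℤ) = 1) (τ : ℍ) :
    jD (ℓ * d) (gam0 (d * M') ℓ u v h • τ) =
      jFun (affH d ℓ 0 (Nat.pos_of_ne_zero (NeZero.ne d)) (Nat.pos_of_ne_zero (NeZero.ne ℓ)) τ) := by
  obtain ⟨δ, hδ⟩ := scaleH_gam0_smul d M' ℓ u v h τ
  rw [jD, hδ, jFun_smul]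

theorem jD_gam0_T_smul (d M ℓ : ℕ) [NeZero d] [NeZero ℓ] (hd : d ∣ M) (u v : ℤ)
    (h : u * ℓ - v * M = 1) (b : ℤ) (τ : ℍ) :
    jD (ℓ * d) ((gam0 M ℓ u v h * ModularGroup.T ^ b) • τ) =
      jFun (affH d ℓ (d * b) (Nat.pos_of_ne_zero (NeZero.ne d))
        (Nat.pos_of_ne_zero (NeZero.ne ℓ)) τ) := by
  obtain ⟨M', rfl⟩ := hd
  rw [mul_smul, jD_gam0_smul, modular_T_zpow_smul]
  congr 1
  apply UpperHalfPlane.ext
  simp only [coe_affH, UpperHalfPlane.coe_vadd]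
  push_cast
  ring

/-! ### formal lemmas on `twist` -/

theorem twist_single_zero {K : Type*} [CommRing K] (ξ : Kˣ) (c : K) :
    twist ξ (HahnSeries.single 0 c) = HahnSeries.single 0 c := by
  ext n
  rw [twist_coeff]
  by_cases hn : n = 0
  · subst hn; simp
  · rw [HahnSeries.coeff_single_of_ne hn, mul_zero]

theorem twist_qExpand {K : Type*} [CommRing K] (ξ : Kˣ) (d : ℕ) [NeZero d] (x : LaurentSeries K) :
    twist ξ (qExpand K d x) = qExpand K d (twist (ξ ^ d) x) := by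
  ext n
  rw [twist_coeff]
  by_cases hn : (d : ℤ) ∣ n
  · obtain ⟨m, rfl⟩ := hn
    rw [qExpand_coeff_mul, qExpand_coeff_mul, twist_coeff, zpow_mul, zpow_natCast]
  · rw [qExpand_coeff_of_not_dvd _ _ hn, qExpand_coeff_of_not_dvd _ _ hn, mul_zero]

theorem coeffMap_twist {K L : Type*} [CommRing K] [CommRing L] (f : K →+* L) (ξ : Kˣ)
    (x : LaurentSeries K) : coeffMap f (twist ξ x) = twist (Units.map (f : K →* L) ξ) (coeffMap f x) := by
  ext n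
  rw [coeffMap_coeff, twist_coeff, twist_coeff, coeffMap_coeff, map_mul, ← map_zpow]
  rfl

theorem rootU_pow (e : ℕ) (b : ℤ) (d : ℕ) : rootU e b ^ d = rootU e (d * b) := by
  apply Units.ext
  rw [Units.val_pow_eq_pow_val, coe_rootU, coe_rootU, ← Complex.exp_nat_mul]
  congr 1
  push_cast
  ring

theorem rootU_natCast (e b : ℕ) : rootU e b = rootU e 1 ^ b := by
  rw [rootU_pow, mul_one]

theorem isPrimitiveRoot_rootU (e : ℕ) [NeZero e] : IsPrimitiveRoot (rootU e 1) e := by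
  rw [← IsPrimitiveRoot.coe_units_iff, coe_rootU]
  have := Complex.isPrimitiveRoot_exp e (NeZero.ne e)
  convert this using 2
  push_cast
  ring

end Fermat.Agent.GR.HeckeField
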